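import Fermat.Agent.S36.Mod3.SpecVT
import Fermat.Agent.S36.Mod3.H189.ChartLeaf
import Fermat.Agent.S36.H919.SheetsDown
import Fermat.Agent.S36.H193.QepThree
import Fermat.Agent.A2.H313.Const
import Fermat.Agent.A2.Mod.H13.S1
import Fermat.Agent.A2.Mod.H553.VzeroNe
import Fermat.Agent.A2.Mod.H553.Vinf
import Fermat.Agent.A2.Mod.H31.Deg
import Fermat.Agent.A2.Mod.H753.IndZero

/-!
# S36 / MOD3, leaf QEP (helper807): `Mod3.LeafQep` from COMPLETENESS along `α` only

`leafQep_of_ff_vt : Mod3.LeafFF → Mod3.LeafVT → Mod3.LeafQep`   (VERBATIM leaf types).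

Of the hub `LeafVT` only the two completeness fields `only_α₁`, `only_α₃` are used
(`partQep_of_only` takes them as explicit hypotheses).  Everything else is discharged here from
main:

* level `M q`: `S1` (`A2.Mod.H13.s1`, unconditional: `p∞ ⊓ p₀ = (w)` in the finite chart of
  `x' = j j_q`) ⟹ every sheet of `x'` is `V₁' = V∞` or `V₂' = V₀` (`sheet_cases_two`; no
  discreteness needed, `w` is a uniformiser of both);
* `H919.h919_complete_of_comap` (completeness goes up along `α`; `chart_α`, `int_α` from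
  `Mod3.H189`) ⟹ every sheet of `x = j j_q j_{q²}` is `V₁`, `V₂` or `V₃`;
* `H193.qep3_of_sheets`, `H193.qep3_inv_of_sheets` ⟹ `Qep3` for BOTH charts.
-/

set_option autoImplicit false
set_option linter.style.haveILetI false
set_option linter.unusedSectionVars false
set_option synthInstance.maxHeartbeats 400000
set_option maxHeartbeats 1600000

noncomputable section

namespace Fermat.Agent.S36.Mod3.H807

open ModularCurve Polynomial
open Fermat.Agent.S18.H138 (chart)
open Fermat.Agent.A2.H12 (IsSheet)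
open Fermat.Agent Fermat.Agent.S36.Eng

universe u

/-! ## Abstract: two components -/

section ChartLe

variable {R : Type u} [CommRing R] {F : Type u} [Field F] [Algebra R F]

/-- A chart lies in a valuation subring containing `R` and the coordinate. -/
theorem chart_le_h807 (V : ValuationSubring F) (hR : ∀ r : R, algebraMap R F r ∈ V)
    {x : F} (hx : x ∈ V) {c : F} (hc : c ∈ chart R ({x} : Set F)) : c ∈ V := by
  refine Fermat.Agent.A2.H12.mem_of_isIntegral_of_le V (Algebra.adjoin R ({x} : Set F)) ?_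
    (Fermat.Agent.S18.H138.mem_chart.1 hc)
  intro a ha
  induction ha using Algebra.adjoin_induction with
  | mem y hy => rw [Set.mem_singleton_iff.1 hy]; exact hx
  | algebraMap r => exact hR r
  | add y z _ _ hy hz => exact V.add_mem _ _ hy hz
  | mul y z _ _ hy hz => exact V.mul_mem _ _ hy hz

end ChartLe

section Two

variable {R : Type u} [CommRing R] [IsDomain R] {F : Type u} [Field F] [Algebra R F]
variable [IsNoetherianRing R] [IsIntegrallyClosed R[X]] [CharZero F]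

/-- **Every sheet is one of `V₁`, `V₂`**, if `w` is a uniformiser of both and
`B ∩ w (V₁ ∩ V₂) ⊆ w B`. -/
theorem sheet_cases_two (hinjR : Function.Injective (algebraMap R F)) {w : R}
    (hw : Prime w) {x : F} (hx : Transcendental R x)
    [FiniteDimensional (Fermat.Agent.S18.H138.baseField R x) F]
    (V₁ V₂ : ValuationSubring F)
    (hV₁ : ∀ c ∈ chart R ({x} : Set F), c ∈ V₁) (hV₂ : ∀ c ∈ chart R ({x} : Set F), c ∈ V₂)
    (hw₁ : algebraMap R F w ∈ V₁.nonunits) (hw₂ : algebraMap R F w ∈ V₂.nonunits)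
    (hu₁ : ∀ f ∈ V₁.nonunits, f * (algebraMap R F w)⁻¹ ∈ V₁)
    (hu₂ : ∀ f ∈ V₂.nonunits, f * (algebraMap R F w)⁻¹ ∈ V₂)
    (hqep : ∀ b : chart R ({x} : Set F), (b : F) * (algebraMap R F w)⁻¹ ∈ V₁ →
      (b : F) * (algebraMap R F w)⁻¹ ∈ V₂ →
      ∃ c : chart R ({x} : Set F), b = algebraMap R (chart R ({x} : Set F)) w * c)
    {W : ValuationSubring F} (hW : IsSheet w x W) : W = V₁ ∨ W = V₂ := by
  set B := chart R ({x} : Set F) with hB
  have hWB : ∀ c ∈ B, c ∈ W := Fermat.Agent.S36.H193.sheet_chart_le hW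
  by_contra hcon
  rw [not_or] at hcon
  obtain ⟨h1, h2⟩ := hcon
  have hsep : ∀ V : ValuationSubring F, (∀ c ∈ B, c ∈ V) → algebraMap R F w ∈ V.nonunits →
      W ≠ V → ∃ b : B, (b : F) ∈ V.nonunits ∧ (b : F) ∉ W.nonunits := by
    intro V hV hwV hne
    by_contra hno
    apply hne
    symm
    refine Fermat.Agent.S36.H919.h919_eq_sheet_of_centre_le hinjR hw hx hW V hV hwV
      (fun b hb => ?_)
    by_contra hbW
    exact hno ⟨b, hb, hbW⟩
  obtain ⟨b₁, hb₁, hb₁W⟩ := hsep V₁ hV₁ hw₁ h1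
  obtain ⟨b₂, hb₂, hb₂W⟩ := hsep V₂ hV₂ hw₂ h2
  set b : B := b₁ * b₂ with hb
  have hbF : (b : F) = (b₁ : F) * (b₂ : F) := by simp [hb]
  have hq₁ : (b : F) * (algebraMap R F w)⁻¹ ∈ V₁ := by
    have : (b : F) * (algebraMap R F w)⁻¹ = ((b₁ : F) * (algebraMap R F w)⁻¹) * (b₂ : F) := by
      rw [hbF]; ring
    rw [this]
    exact V₁.mul_mem _ _ (hu₁ _ hb₁) (hV₁ b₂ b₂.2)
  have hq₂ : (b : F) * (algebraMap R F w)⁻¹ ∈ V₂ := by
    have : (b : F) * (algebraMap R F w)⁻¹ = ((b₂ : F) * (algebraMap R F w)⁻¹) * (b₁ : F) := by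
      rw [hbF]; ring
    rw [this]
    exact V₂.mul_mem _ _ (hu₂ _ hb₂) (hV₂ b₁ b₁.2)
  obtain ⟨c, hc⟩ := hqep b hq₁ hq₂
  have hbW : (b : F) ∈ W.nonunits := by
    have : (b : F) = algebraMap R F w * (c : F) := by
      have := congrArg (fun z : B => (z : F)) hc
      simpa using this
    rw [this]
    exact Fermat.Agent.S36.H919.h919_mem_nonunits_mul W hW.2.2.1 (hWB c c.2)
  have hunit : ∀ b' : B, (b' : F) ∉ W.nonunits → W.valuation (b' : F) = 1 := by
    intro b' hb'
    rw [ValuationSubring.mem_nonunits_iff, not_lt] at hb'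
    exact le_antisymm ((ValuationSubring.valuation_le_one_iff W _).2 (hWB b' b'.2)) hb'
  rw [ValuationSubring.mem_nonunits_iff, hbF, map_mul, hunit b₁ hb₁W, hunit b₂ hb₂W,
    mul_one] at hbW
  exact lt_irrefl _ hbW

end Two

/-! ## Concrete -/

section Concrete

variable (P : ValuationSubring A2.Qb) (E : IntermediateField ℚ A2.Qb) (M q : ℕ)
  [NeZero M] [NeZero q] [NeZero (M * q)]

/-- **Level `M q`: every sheet of `x' = j j_q` is `V∞` or `V₀`.** -/
theorem sheets_level_one (w : A2.RE P E) (hS : A2.Mod.Setting P E M q w)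
    (V : ValuationSubring (A2.Mod.FE E (M * q)))
    (W' : A2.Mod.FE E (M * q) ≃ₐ[E] A2.Mod.FE E (M * q))
    (hV : A2.Mod.IsVinf P E (M * q) V) (hW' : A2.Mod.IsFricke E (M * q) W') :
    ∀ U : ValuationSubring (A2.Mod.FE E (M * q)),
      IsSheet w (A2.Mod.xE E M q) U →
      U = V ∨ U = V.comap (W' : A2.Mod.FE E (M * q) →+* A2.Mod.FE E (M * q)) := by
  haveI := hS.dvr
  obtain ⟨htr, hfr, -⟩ := A2.Mod.H31.deg E M q hS.q_prime hS.q_not_dvd
  have hu : A2.H48.IsUnif V (A2.Mod.cE P E (M * q) w) :=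
    (A2.Mod.H553.vinfBasic P E w (M * q) (NeZero.ne _) hS.dvr hS.unif V hV).1
  have hu₂ := A2.Mod.H13.isUnif_comap hu W'
  have hG₁ := A2.Mod.H13.isGaussOver_xE hS.unif hV htr
  have hG₂ := A2.Mod.H13.isGaussOver_comap_xE hS.unif hV hW' htr
  have hpos : 0 < Module.finrank
      (IntermediateField.adjoin E ({A2.Mod.xE E M q} : Set (A2.Mod.FE E (M * q))))
      (A2.Mod.FE E (M * q)) := by
    rw [hfr]
    have h1 := A2.Mod.dedekindPsi_pos_of_ne_zero M (NeZero.ne M)
    positivity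
  haveI hfin : FiniteDimensional
      (IntermediateField.adjoin E ({A2.Mod.xE E M q} : Set (A2.Mod.FE E (M * q))))
      (A2.Mod.FE E (M * q)) := Module.finite_of_finrank_pos hpos
  haveI : CharZero (A2.Mod.FE E (M * q)) :=
    charZero_of_injective_algebraMap (algebraMap E (A2.Mod.FE E (M * q))).injective
  have hinj : Function.Injective (algebraMap (A2.RE P E) (A2.Mod.FE E (M * q))) := by
    rw [IsScalarTower.algebraMap_eq (A2.RE P E) E (A2.Mod.FE E (M * q))]
    exact (algebraMap E (A2.Mod.FE E (M * q))).injective.comp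
      (IsFractionRing.injective (A2.RE P E) E)
  have hxR : Transcendental (A2.RE P E) (A2.Mod.xE E M q) :=
    A2.Mod.H13.transcendental_RE htr
  haveI : FiniteDimensional (Fermat.Agent.S18.H138.baseField (A2.RE P E) (A2.Mod.xE E M q))
      (A2.Mod.FE E (M * q)) :=
    Fermat.Agent.A2.H313.finiteDimensional_baseField_of_adjoin E (A2.Mod.xE E M q)
  obtain ⟨p₁, p₂, hc₁, hc₂, -, -, -, -, hinf⟩ :=
    A2.Mod.H13.s1 (A2.Mod.H553.vzeroNe P E M q w) (A2.Mod.H31.deg E M q)
      (A2.Mod.H753.indInf P E M q w) (A2.Mod.H753.indZero P E M q w) hS V W' hV hW'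
      (A2.Mod.xE E M q) (Or.inl rfl)
  intro U hU
  refine sheet_cases_two hinj hS.unif.prime hxR V
    (V.comap (W' : A2.Mod.FE E (M * q) →+* A2.Mod.FE E (M * q))) ?_ ?_ ?_ ?_ ?_ ?_ ?_ hU
  · intro c hc
    exact chart_le_h807 V hG₁.isOver.mem hG₁.mem hc
  · intro c hc
    exact chart_le_h807 _ hG₂.isOver.mem hG₂.mem hc
  · rw [ValuationSubring.mem_nonunits_iff]
    exact hu.val_lt_one
  · rw [ValuationSubring.mem_nonunits_iff]
    exact hu₂.val_lt_one
  · intro f hf
    exact (A2.Mod.H13.inW_iff_mem_nonunits hu f).2 hf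
  · intro f hf
    exact (A2.Mod.H13.inW_iff_mem_nonunits hu₂ f).2 hf
  · intro b hb₁ hb₂
    have h1 : b ∈ p₁ := (hc₁ b).2 hb₁
    have h2 : b ∈ p₂ := (hc₂ b).2 hb₂
    have h3 : b ∈ p₁ ⊓ p₂ := ⟨h1, h2⟩
    rw [hinf] at h3
    obtain ⟨a, ha⟩ := Ideal.mem_span_singleton'.1 h3
    exact ⟨a, ha.symm.trans (mul_comm _ _)⟩

/-- **`PartQep` from completeness along `α`.** -/
theorem partQep_of_only (w : A2.RE P E) (hS : Mod3.Std P E M q w)
    (V₁' V₂' : ValuationSubring (A2.Mod.FE E (M * q)))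
    (V₁ V₂ V₃ : ValuationSubring (A2.Mod.FE E (M * q * q)))
    (W' : A2.Mod.FE E (M * q) ≃ₐ[E] A2.Mod.FE E (M * q))
    (hvinf' : A2.Mod.IsVinf P E (M * q) V₁') (hW' : A2.Mod.IsFricke E (M * q) W')
    (hvzero' : V₂' = V₁'.comap (W' : A2.Mod.FE E (M * q) →+* A2.Mod.FE E (M * q)))
    (hFF : Mod3.PartFF E (Mod3.x3E E M q))
    (only₁ : ∀ V : ValuationSubring (A2.Mod.FE E (M * q * q)),
      V.comap (A2.Mod.αE E (M * q) q : A2.Mod.FE E (M * q) →+* A2.Mod.FE E (M * q * q)) = V₁' →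
      V = V₁ ∨ V = V₂)
    (only₃ : ∀ V : ValuationSubring (A2.Mod.FE E (M * q * q)),
      V.comap (A2.Mod.αE E (M * q) q : A2.Mod.FE E (M * q) →+* A2.Mod.FE E (M * q * q)) = V₂' →
      V = V₃) :
    Mod3.PartQep (R := A2.RE P E) w (Mod3.x3E E M q) V₁ V₂ V₃ := by
  haveI hdvr : IsDiscreteValuationRing (A2.RE P E) := hS.unram.1.dvr
  have hSet : A2.Mod.Setting P E M q w :=
    ⟨hS.q_prime, hS.q_not_dvd, NeZero.ne M, hS.lies_over, hdvr, hS.unif⟩
  haveI : CharZero (A2.Mod.FE E (M * q * q)) :=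
    charZero_of_injective_algebraMap (algebraMap E (A2.Mod.FE E (M * q * q))).injective
  have hinj : Function.Injective (algebraMap (A2.RE P E) (A2.Mod.FE E (M * q * q))) := by
    rw [IsScalarTower.algebraMap_eq (A2.RE P E) E (A2.Mod.FE E (M * q * q))]
    exact (algebraMap E (A2.Mod.FE E (M * q * q))).injective.comp
      (IsFractionRing.injective (A2.RE P E) E)
  have hxR : Transcendental (A2.RE P E) (Mod3.x3E E M q) :=
    A2.Mod.H13.transcendental_RE hFF.hx
  haveI hfin3 : FiniteDimensional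
      (IntermediateField.adjoin E ({Mod3.x3E E M q} : Set (A2.Mod.FE E (M * q * q))))
      (A2.Mod.FE E (M * q * q)) := hFF.hfin
  haveI : FiniteDimensional (Fermat.Agent.S18.H138.baseField (A2.RE P E) (Mod3.x3E E M q))
      (A2.Mod.FE E (M * q * q)) :=
    Fermat.Agent.A2.H313.finiteDimensional_baseField_of_adjoin E (Mod3.x3E E M q)
  have hαR : ∀ r : A2.RE P E,
      (A2.Mod.αE E (M * q) q : A2.Mod.FE E (M * q) →+* A2.Mod.FE E (M * q * q))
        (algebraMap (A2.RE P E) (A2.Mod.FE E (M * q)) r) =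
      algebraMap (A2.RE P E) (A2.Mod.FE E (M * q * q)) r := by
    intro r
    rw [IsScalarTower.algebraMap_apply (A2.RE P E) E (A2.Mod.FE E (M * q)),
      IsScalarTower.algebraMap_apply (A2.RE P E) E (A2.Mod.FE E (M * q * q))]
    exact (A2.Mod.αE E (M * q) q).commutes _
  have hdown := sheets_level_one P E M q w hSet V₁' W' hvinf' hW'
  have hsheets : ∀ V : ValuationSubring (A2.Mod.FE E (M * q * q)),
      IsSheet w (Mod3.x3E E M q) V → V = V₁ ∨ V = V₂ ∨ V = V₃ := by
    refine Fermat.Agent.S36.H919.h919_complete_of_comap hS.unif hxR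
      (A2.Mod.αE E (M * q) q : A2.Mod.FE E (M * q) →+* A2.Mod.FE E (M * q * q)) hαR
      (x' := A2.Mod.xE E M q) (Mod3.H189.chart_α_x3E P E M q hS.q_prime)
      (Mod3.H189.int_α_x3E P E M q hS.q_prime _ (Fermat.Agent.S18.H138.mem_chart_of_mem rfl))
      V₁ V₂ V₃ V₁' V₂' ?_ (fun V _ h => only₁ V h) (fun V _ h => only₃ V h)
    intro U hU
    rw [hvzero']
    exact hdown U hU
  exact
    { qep_f := Fermat.Agent.S36.H193.qep3_of_sheets hinj w hS.unif.prime hxR V₁ V₂ V₃ hsheets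
      qep_i := Fermat.Agent.S36.H193.qep3_inv_of_sheets hinj w hS.unif.prime hxR V₁ V₂ V₃
        hsheets }

end Concrete

/-- **`LeafQep` from `LeafFF` and the two completeness fields of the hub `LeafVT`.** -/
theorem leafQep_of_ff_vt (hFF : Mod3.LeafFF) (hVT : Mod3.LeafVT) : Mod3.LeafQep := by
  intro P E M q _ _ _ w hS V₁' V₂' V₁ V₂ V₃ W' W hO
  have vt := hVT P E M q w hS V₁' V₂' V₁ V₂ V₃ W' W hO
  exact partQep_of_only P E M q w hS V₁' V₂' V₁ V₂ V₃ W' hO.vinf' hO.fricke' hO.vzero'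
    (hFF E M q hS.q_prime hS.q_not_dvd) vt.only_α₁ vt.only_α₃

end Fermat.Agent.S36.Mod3.H807

end
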